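/-
Program B' (S34), leaf (M6c) CLOSED on the concrete model (helper79; task FINAL-LEAF-C).

* `cusp_stdV_of_rel` : `(stdV M q A hAtop O₁ w K₀ ϖ j σ).Cusp` for EVERY base function `x₀`
  (with `H30.IsBase`) related to `j(q^M)` by `j(q^M) · D(x₀) = N(x₀)`, `N, D ∈ ℤ[X]`, `N` monic,
  `deg D < deg N` (`x₀ = j(q^M)`: `N = X`, `D = 1`; Hauptmoduln: `D = X`, `N = (X + 16)³` resp.
  `(X + 27)(X + 3)³`).  A closed point of the chart at infinity with `(α x₀)⁻¹ ∈ x` has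
  `(α j(q^M))⁻¹` in the maximal ideal of its local ring (`H42.inMax_inv_of_inMax_inv`), and
  helper42's local form `H42.cusp_not_both_loc` of (M6c) applies (modular equation at `d = M`,
  Kronecker congruences of `TwoGauss` at the rational function `j(q^M)`);
* `cusp_stdV_hauptTwo`, `cusp_stdV_hauptThree` : the two Hauptmodul instances;
* `cuspLeaf2`, `cuspLeafB_std` : the leaves `H30.CuspLeaf2` and `H77.CuspLeafB H30.StdB`.
-/
import Fermat.Agent.S34.H79.CuspStd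
import Fermat.Agent.S34.H42.CuspHaupt
import Fermat.Agent.S34.H19.CuspTop
import Fermat.Agent.S34.H19.HauptRel
import Fermat.Agent.S34.H64.ChartJ
import Fermat.Agent.S34.H30.Final

set_option autoImplicit false
set_option linter.style.haveILetI false
set_option linter.unusedSectionVars false

open AlgebraicCurve ModularCurve

noncomputable section

namespace Fermat.Agent.S34.H79

open Fermat.Agent.S34.H27 Fermat.Agent.S34.H30
  Fermat.Agent.S18 Fermat.Agent.S18.H74 Fermat.Agent.S18.H19 Fermat.Agent.S34.H19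
  Fermat.Agent.S34.H61 Fermat.Agent.S34.H64 Fermat.Agent.S28

/-- **(M6c) on the concrete model, for a base function with a `j`-relation.** -/
theorem cusp_stdV_of_rel (M q : ℕ) [NeZero M] [Fact q.Prime] (hqM : ¬ q ∣ M)
    (A : ValuationSubring Kb) (hA : A.LiesOverPrime q) (hAtop : A ≠ ⊤)
    (O₁ : ValuationSubring (FN (M * q))) (w : FN (M * q) ≃+* FN (M * q))
    (hTG : TwoGauss M q hqM A hA O₁ w) (x₀ : FN M)
    (hx₀ : IsBase M q hqM A hA x₀)
    (N D : Polynomial ℤ) (hN : N.Monic) (hdeg : D.natDegree < N.natDegree)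
    (hrel : Fermat.Agent.S18.H28.jtop M * Polynomial.aeval x₀ D = Polynomial.aeval x₀ N)
    (K₀ : IntermediateField ℚ Kb) [FiniteDimensional ℚ K₀] [Normal ℚ K₀]
    (ϖ : ↥(A.comap (algebraMap K₀ Kb))) (j : ↥(ratForm (M * q) K₀))
    (hj : (j : FN (M * q)) = heckeAlphaBar Kb M q x₀)
    (σ : Kb ≃ₐ[ℚ] Kb) : (stdV M q A hAtop O₁ w K₀ ϖ j σ).Cusp := by
  have hq : q.Prime := Fact.out
  haveI : NeZero q := ⟨hq.ne_zero⟩
  letI := algComap (A.comap (algebraMap K₀ Kb)) (ratForm (M * q) K₀)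
  haveI := Fermat.Agent.S34.H78.isDVR_comap hAtop K₀
  haveI := Fermat.Agent.S34.H78.faithfulSMul_comap A K₀ (ratForm (M * q) K₀)
  -- the chart facts
  obtain ⟨htr, hfin⟩ := chartLeaf M q hqM A hA _ hx₀ K₀ j hj
  have hCG := Fermat.Agent.S34.H44.chartsGood j htr hfin
  -- the base function is rational, and a unit of the Gauss ring of level `M`
  obtain ⟨g, hg⟩ := hx₀.1
  have hfmem : x₀ ∈ ratForm M K₀ := by
    rw [← hg]
    exact ratEmb_mem_ratForm M K₀ g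
  have hfO : x₀ ∈ H66.gaussO A M hA hqM ∧ x₀⁻¹ ∈ H66.gaussO A M hA hqM := by
    letI := algComap (A.comap (algebraMap K₀ Kb)) (ratForm M K₀)
    have h := (hx₀.2 K₀ hfmem).1.gauss Polynomial.X
      ⟨1, by rw [Polynomial.coeff_X_one]; exact isUnit_one⟩
    rw [Polynomial.aeval_X] at h
    exact ⟨h.1, h.2⟩
  -- `j(q^M)` is rational and a unit of the Gauss ring
  have hJmem : Fermat.Agent.S18.H28.jtop M ∈ ratForm M K₀ := jFN_mem_ratForm M K₀ M dvd_rfl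
  have hJinv : (Fermat.Agent.S18.H28.jtop M)⁻¹ ∈ H66.gaussO A M hA hqM := jtop_inv_mem hTG
  have hJ0 : Fermat.Agent.S18.H28.jtop M ≠ 0 :=
    Fermat.Agent.S34.H42.jFN_ne_zero M M dvd_rfl
  -- Kronecker at the rational function `j(q^M)`
  have hk : heckeBetaBar Kb M q (Fermat.Agent.S18.H28.jtop M)
      - heckeAlphaBar Kb M q (Fermat.Agent.S18.H28.jtop M) ^ q ∈ O₁.nonunits := sep_top₁ hTG
  -- the modular equations
  obtain ⟨Φ, hΦ⟩ := Fermat.Agent.S28.hasModPolys q hq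
  obtain ⟨hm12, hm21⟩ := evalY_alpha_beta_jtop M q hΦ
  -- the point
  intro x hx _ hcusp
  obtain ⟨c, hcx, hc⟩ := hcusp
  haveI := hx.isPrime
  let ι : ↥(ratForm (M * q) K₀) →+* FN (M * q) :=
    algebraMap ↥(ratForm (M * q) K₀) (FN (M * q))
  set j₁ : ↥(ratForm (M * q) K₀) :=
    ⟨heckeAlphaBar Kb M q (Fermat.Agent.S18.H28.jtop M),
      heckeAlphaBar_mem_ratForm M q K₀ hJmem⟩ with hj₁def
  set j₂ : ↥(ratForm (M * q) K₀) :=
    ⟨heckeBetaBar Kb M q (Fermat.Agent.S18.H28.jtop M),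
      heckeBetaBar_mem_ratForm M q K₀ hJmem⟩ with hj₂def
  have hι : ι j = heckeAlphaBar Kb M q x₀ := hj
  have hι₁ : ι j₁ = heckeAlphaBar Kb M q (Fermat.Agent.S18.H28.jtop M) := rfl
  have hι₂ : ι j₂ = heckeBetaBar Kb M q (Fermat.Agent.S18.H28.jtop M) := rfl
  have hα0 : heckeAlphaBar Kb M q x₀ ≠ 0 := fun h0 =>
    hx₀.alpha_transcendental (by rw [h0]; exact isAlgebraic_zero)
  have hαJ0 : heckeAlphaBar Kb M q (Fermat.Agent.S18.H28.jtop M) ≠ 0 :=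
    (map_ne_zero (heckeAlphaBar Kb M q)).2 hJ0
  have hβJ0 : heckeBetaBar Kb M q (Fermat.Agent.S18.H28.jtop M) ≠ 0 :=
    (map_ne_zero (heckeBetaBar Kb M q)).2 hJ0
  have hj0 : j ≠ 0 := by
    rintro rfl
    exact hα0 (by rw [← hι, map_zero])
  have hj₁ : j₁ ≠ 0 := by
    intro h0
    exact hαJ0 (by rw [← hι₁, h0, map_zero])
  have hj₂ : j₂ ≠ 0 := by
    intro h0
    exact hβJ0 (by rw [← hι₂, h0, map_zero])
  have h12 : (evalY j₁ Φ).eval j₂ = 0 := by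
    apply ι.injective
    rw [map_evalY_eval, hι₁, hι₂, hm12, map_zero]
  have h21 : (evalY j₂ Φ).eval j₁ = 0 := by
    apply ι.injective
    rw [map_evalY_eval, hι₁, hι₂, hm21, map_zero]
  -- the two Gauss rings on the `K₀`-form
  have hn₁ : ∀ y : ↥(ratForm (M * q) K₀), y ∈ (O₁.comap ι).nonunits ↔ ι y ∈ O₁.nonunits :=
    fun y => (mem_nonunits_iff_of_mem_iff ι (O₁.comap ι) O₁ (fun _ => Iff.rfl) y).symm
  have hn₂ : ∀ y : ↥(ratForm (M * q) K₀),
      y ∈ ((gaussTwo M q O₁ w).comap ι).nonunits ↔ w (ι y) ∈ O₁.nonunits := fun y => by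
    rw [← mem_nonunits_gaussTwo (M := M) (q := q)]
    exact (mem_nonunits_iff_of_mem_iff ι ((gaussTwo M q O₁ w).comap ι) (gaussTwo M q O₁ w)
      (fun _ => Iff.rfl) y).symm
  have hk₁ : j₂ - j₁ ^ q ∈ (O₁.comap ι).nonunits := by
    rw [hn₁, map_sub, map_pow, hι₁, hι₂]
    exact hk
  have hk₂ : j₁ - j₂ ^ q ∈ ((gaussTwo M q O₁ w).comap ι).nonunits := by
    rw [hn₂, map_sub, map_pow, hι₁, hι₂, map_sub, map_pow, hTG.w_alpha, hTG.w_beta]
    exact hk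
  have hu₁ : j₁⁻¹ ∈ O₁.comap ι := by
    show ι j₁⁻¹ ∈ O₁
    rw [map_inv₀, hι₁, ← map_inv₀, hTG.alpha_mem_iff]
    exact hJinv
  have hu₂ : j₂⁻¹ ∈ (gaussTwo M q O₁ w).comap ι := by
    show w (ι j₂⁻¹) ∈ O₁
    rw [map_inv₀, hι₂, map_inv₀, hTG.w_beta, ← map_inv₀, hTG.alpha_mem_iff]
    exact hJinv
  -- the chart at infinity lies in both Gauss rings
  have hA₁ : ∀ a : ↥(A.comap (algebraMap K₀ Kb)),
      algebraMap ↥(A.comap (algebraMap K₀ Kb)) ↥(ratForm (M * q) K₀) a ∈ O₁.comap ι := fun a => by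
    show algebraMap Kb (FN (M * q)) (algebraMap K₀ Kb (a : K₀)) ∈ O₁
    rw [hTG.algebraMap_mem_iff]
    exact a.2
  have hA₂ : ∀ a : ↥(A.comap (algebraMap K₀ Kb)),
      algebraMap ↥(A.comap (algebraMap K₀ Kb)) ↥(ratForm (M * q) K₀) a ∈
        (gaussTwo M q O₁ w).comap ι := fun a => by
    show w (algebraMap Kb (FN (M * q)) (algebraMap K₀ Kb (a : K₀))) ∈ O₁
    rw [hTG.w_algebraMap, hTG.algebraMap_mem_iff]
    exact a.2
  have hjinv₁ : j⁻¹ ∈ O₁.comap ι := by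
    show ι j⁻¹ ∈ O₁
    rw [map_inv₀, hι, ← map_inv₀, hTG.alpha_mem_iff]
    exact hfO.2
  have hjinv₂ : j⁻¹ ∈ (gaussTwo M q O₁ w).comap ι := by
    show w (ι j⁻¹) ∈ O₁
    rw [map_inv₀, hι, map_inv₀, hTG.w_alpha, ← map_inv₀, hTG.beta_mem_iff]
    exact hfO.2
  have hCV₁ := Fermat.Agent.S18.H72.chart_subset_valuationSubring (O₁.comap ι) hA₁ hjinv₁
  have hCV₂ := Fermat.Agent.S18.H72.chart_subset_valuationSubring
    ((gaussTwo M q O₁ w).comap ι) hA₂ hjinv₂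
  haveI := hCG.icl₂
  have hs : j⁻¹ ∈ chart ↥(A.comap (algebraMap K₀ Kb)) j⁻¹ := self_mem_chart _ _
  have hsx : (⟨j⁻¹, hs⟩ : ↥(chart ↥(A.comap (algebraMap K₀ Kb)) j⁻¹)) ∈ x := by
    have hcj : c = ⟨j⁻¹, hs⟩ := Subtype.ext hc
    rw [← hcj]
    exact hcx
  -- the `j`-relation on the `K₀`-form
  have hαP : ∀ P : Polynomial ℤ, heckeAlphaBar Kb M q (Polynomial.aeval x₀ P)
      = Polynomial.aeval (heckeAlphaBar Kb M q x₀) P := fun P =>
    (Polynomial.aeval_algHom_apply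
      ((heckeAlphaBar Kb M q : FN M →+* FN (M * q)).toIntAlgHom) x₀ P).symm
  have hιP : ∀ P : Polynomial ℤ, ι (Polynomial.aeval j P) = Polynomial.aeval (ι j) P := fun P =>
    (Polynomial.aeval_algHom_apply (ι.toIntAlgHom) j P).symm
  have hrelZ : j₁ * Polynomial.aeval j D = Polynomial.aeval j N := by
    apply ι.injective
    rw [map_mul, hιP, hιP, hι₁, hι, ← hαP, ← hαP, ← map_mul, hrel]
  have hrelF : j₁ * Polynomial.aeval j
        (D.map (algebraMap ℤ ↥(A.comap (algebraMap K₀ Kb))))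
      = Polynomial.aeval j (N.map (algebraMap ℤ ↥(A.comap (algebraMap K₀ Kb)))) := by
    rw [Polynomial.aeval_map_algebraMap, Polynomial.aeval_map_algebraMap]
    exact hrelZ
  have hdeg' : (D.map (algebraMap ℤ ↥(A.comap (algebraMap K₀ Kb)))).natDegree
      < (N.map (algebraMap ℤ ↥(A.comap (algebraMap K₀ Kb)))).natDegree := by
    rw [hN.natDegree_map]
    exact lt_of_le_of_lt Polynomial.natDegree_map_le hdeg
  have hh : Fermat.Agent.S34.H42.InMax (chart ↥(A.comap (algebraMap K₀ Kb)) j⁻¹) x j⁻¹ :=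
    Fermat.Agent.S34.H42.inMax_of_mem _ x hs hsx
  have hJ : Fermat.Agent.S34.H42.InMax (chart ↥(A.comap (algebraMap K₀ Kb)) j⁻¹) x j₁⁻¹ :=
    Fermat.Agent.S34.H42.inMax_inv_of_inMax_inv _ hCG.frac₂ x _ _
      (hN.map (algebraMap ℤ ↥(A.comap (algebraMap K₀ Kb)))) hdeg' j j₁ hj0 hrelF hh
  exact Fermat.Agent.S34.H42.cusp_not_both_loc (chart ↥(A.comap (algebraMap K₀ Kb)) j⁻¹)
    hCG.frac₂ hq hΦ j₁ j₂ hj₁ hj₂ h12 h21 (O₁.comap ι) ((gaussTwo M q O₁ w).comap ι)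
    hCV₁ hCV₂ hk₁ hk₂ hu₁ hu₂ x hJ

/-- **(M6c) on the concrete model, Hauptmodul of level two** (`M = 2n`; used for `q = 3`). -/
theorem cusp_stdV_hauptTwo (n M : ℕ) [NeZero n] [NeZero M] (hM : M = n * 2) (q : ℕ)
    [Fact q.Prime] (hqM : ¬ q ∣ M)
    (A : ValuationSubring Kb) (hA : A.LiesOverPrime q) (hAtop : A ≠ ⊤)
    (O₁ : ValuationSubring (FN (M * q))) (w : FN (M * q) ≃+* FN (M * q))
    (hTG : TwoGauss M q hqM A hA O₁ w)
    (hx₀ : IsBase M q hqM A hA (hauptTwo n M hM))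
    (K₀ : IntermediateField ℚ Kb) [FiniteDimensional ℚ K₀] [Normal ℚ K₀]
    (ϖ : ↥(A.comap (algebraMap K₀ Kb))) (j : ↥(ratForm (M * q) K₀))
    (hj : (j : FN (M * q)) = heckeAlphaBar Kb M q (hauptTwo n M hM))
    (σ : Kb ≃ₐ[ℚ] Kb) : (stdV M q A hAtop O₁ w K₀ ϖ j σ).Cusp :=
  cusp_stdV_of_rel M q hqM A hA hAtop O₁ w hTG _ hx₀ ((Polynomial.X + Polynomial.C 16) ^ 3)
    Polynomial.X monic_haupt_two_num
    (by rw [natDegree_haupt_two_num, Polynomial.natDegree_X]; norm_num)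
    (hauptTwo_rel_poly n M hM) K₀ ϖ j hj σ

/-- **(M6c) on the concrete model, Hauptmodul of level three** (`M = 3n`; used for `q = 2`). -/
theorem cusp_stdV_hauptThree (n M : ℕ) [NeZero n] [NeZero M] (hM : M = n * 3) (q : ℕ)
    [Fact q.Prime] (hqM : ¬ q ∣ M)
    (A : ValuationSubring Kb) (hA : A.LiesOverPrime q) (hAtop : A ≠ ⊤)
    (O₁ : ValuationSubring (FN (M * q))) (w : FN (M * q) ≃+* FN (M * q))
    (hTG : TwoGauss M q hqM A hA O₁ w)
    (hx₀ : IsBase M q hqM A hA (hauptThree n M hM))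
    (K₀ : IntermediateField ℚ Kb) [FiniteDimensional ℚ K₀] [Normal ℚ K₀]
    (ϖ : ↥(A.comap (algebraMap K₀ Kb))) (j : ↥(ratForm (M * q) K₀))
    (hj : (j : FN (M * q)) = heckeAlphaBar Kb M q (hauptThree n M hM))
    (σ : Kb ≃ₐ[ℚ] Kb) : (stdV M q A hAtop O₁ w K₀ ϖ j σ).Cusp :=
  cusp_stdV_of_rel M q hqM A hA hAtop O₁ w hTG _ hx₀
    ((Polynomial.X + Polynomial.C 27) * (Polynomial.X + Polynomial.C 3) ^ 3)
    Polynomial.X monic_haupt_three_num
    (by rw [natDegree_haupt_three_num, Polynomial.natDegree_X]; norm_num)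
    (hauptThree_rel_poly n M hM) K₀ ϖ j hj σ

/-- **Leaf (M6c), CLOSED** (the form of `Leaves2.lean`). -/
theorem cuspLeaf2 : CuspLeaf2 := by
  intro M q _ _ hqM A hA hAtop O₁ w hTG x₀ hx₀ hspec K₀ _ _ ϖ hϖ j hj σ
  rcases hspec with ⟨-, -, rfl⟩ | ⟨-, n, _, hM, rfl⟩ | ⟨-, n, _, hM, rfl⟩
  · exact cusp_stdV_jtop M q hqM A hA hAtop O₁ w hTG hx₀ K₀ ϖ j hj σ
  · exact cusp_stdV_hauptTwo n M hM q hqM A hA hAtop O₁ w hTG hx₀ K₀ ϖ j hj σ
  · exact cusp_stdV_hauptThree n M hM q hqM A hA hAtop O₁ w hTG hx₀ K₀ ϖ j hj σ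

/-- **Leaf (M6c), CLOSED** (the relative form of the root `H77.RootB` at the standard base
function). -/
theorem cuspLeafB_std : Fermat.Agent.S34.H77.CuspLeafB StdB :=
  cuspLeafB_std_of2 cuspLeaf2

end Fermat.Agent.S34.H79
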