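/-
Program B' (S34), leaf (M6c) on the concrete model for the base function `j(q^M)` (helper79;
item (U1) of helper30's status row): a closed point of the chart at infinity of `stdV` on the
divisor `j = ∞` does not lie on both components of the special fibre.

* `alpha_jtop`, `beta_jtop` : `α (j(q^M)) = j(q^M)`, `β (j(q^M)) = j(q^{Mq})` at level `M q`;
* `cusp_stdV_jtop` : `(stdV M q A hAtop O₁ w K₀ ϖ j σ).Cusp` for `j = α (j(q^M))`
  (instance of helper42's abstract `H42.cusp_not_both`: modular equation `H42.evalY_jFN` at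
  `d = M`, Kronecker congruences of `TwoGauss` at the rational function `j(q^M)`);
* `CuspLeaf23`, `cuspLeaf2_of_23` : `H30.CuspLeaf2` from its cases `q = 2, 3` (Hauptmodul base
  functions).
-/
import Fermat.Agent.S34.H30.Leaves2
import Fermat.Agent.S34.H42.CuspComp
import Fermat.Agent.S34.H42.CuspIntegral
import Fermat.Agent.S18.H72.ChartConst

set_option autoImplicit false
set_option linter.style.haveILetI false
set_option linter.unusedSectionVars false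

open AlgebraicCurve ModularCurve

noncomputable section

namespace Fermat.Agent.S34.H79

open Fermat.Agent.S34.H27 Fermat.Agent.S34.H30
  Fermat.Agent.S18 Fermat.Agent.S18.H74 Fermat.Agent.S18.H19 Fermat.Agent.S34.H19
  Fermat.Agent.S34.H61 Fermat.Agent.S34.H64 Fermat.Agent.S28

section Top

variable (M q : ℕ) [NeZero M] [NeZero q]

/-- `α (j(q^M)) = j(q^M)` at level `M q`. -/
theorem alpha_jtop :
    heckeAlphaBar Kb M q (Fermat.Agent.S18.H28.jtop M)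
      = Fermat.Agent.S18.H28.jFN (M * q) M (dvd_mul_right M q) :=
  Subtype.ext rfl

/-- `β (j(q^M)) = j(q^{M q})`. -/
theorem beta_jtop :
    heckeBetaBar Kb M q (Fermat.Agent.S18.H28.jtop M)
      = Fermat.Agent.S18.H28.jFN (M * q) (M * q) dvd_rfl := by
  have h1 := Fermat.Agent.S29.H64.heckeBetaBar_jF M q (Fermat.Agent.S24.topDiv M)
  have h2 : Fermat.Agent.S18.H28.jtop M
      = Fermat.Agent.S24.jF M (Fermat.Agent.S24.topDiv M) := Subtype.ext rfl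
  rw [h2, h1]
  exact Subtype.ext rfl

end Top

/-- **(M6c) on the concrete model, base function `j(q^M)`.** -/
theorem cusp_stdV_jtop (M q : ℕ) [NeZero M] [Fact q.Prime] (hqM : ¬ q ∣ M)
    (A : ValuationSubring Kb) (hA : A.LiesOverPrime q) (hAtop : A ≠ ⊤)
    (O₁ : ValuationSubring (FN (M * q))) (w : FN (M * q) ≃+* FN (M * q))
    (hTG : TwoGauss M q hqM A hA O₁ w)
    (hx₀ : IsBase M q hqM A hA (Fermat.Agent.S18.H28.jtop M))
    (K₀ : IntermediateField ℚ Kb) [FiniteDimensional ℚ K₀] [Normal ℚ K₀]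
    (ϖ : ↥(A.comap (algebraMap K₀ Kb))) (j : ↥(ratForm (M * q) K₀))
    (hj : (j : FN (M * q)) = heckeAlphaBar Kb M q (Fermat.Agent.S18.H28.jtop M))
    (σ : Kb ≃ₐ[ℚ] Kb) : (stdV M q A hAtop O₁ w K₀ ϖ j σ).Cusp := by
  have hq : q.Prime := Fact.out
  haveI : NeZero q := ⟨hq.ne_zero⟩
  letI := algComap (A.comap (algebraMap K₀ Kb)) (ratForm (M * q) K₀)
  haveI := Fermat.Agent.S34.H78.isDVR_comap hAtop K₀
  haveI := Fermat.Agent.S34.H78.faithfulSMul_comap A K₀ (ratForm (M * q) K₀)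
  -- the chart facts
  obtain ⟨htr, hfin⟩ := chartLeaf M q hqM A hA _ hx₀ K₀ j hj
  have hCG := Fermat.Agent.S34.H44.chartsGood j htr hfin
  -- the base function is rational, and a unit of the Gauss ring of level `M`
  obtain ⟨g, hg⟩ := hx₀.1
  have hfmem : Fermat.Agent.S18.H28.jtop M ∈ ratForm M K₀ := by
    rw [← hg]
    exact ratEmb_mem_ratForm M K₀ g
  have hfO : Fermat.Agent.S18.H28.jtop M ∈ H66.gaussO A M hA hqM ∧
      (Fermat.Agent.S18.H28.jtop M)⁻¹ ∈ H66.gaussO A M hA hqM := by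
    letI := algComap (A.comap (algebraMap K₀ Kb)) (ratForm M K₀)
    have h := (hx₀.2 K₀ hfmem).1.gauss Polynomial.X
      ⟨1, by rw [Polynomial.coeff_X_one]; exact isUnit_one⟩
    rw [Polynomial.aeval_X] at h
    exact ⟨h.1, h.2⟩
  -- Kronecker at the rational function `j(q^M)`
  obtain ⟨s, hs⟩ := Fermat.Agent.S54.H94.exists_isFrobeniusAt_of_liesOverPrime A hq hA
  have hk := hTG.kronecker s hs _ hfO.1
  have hfix : arithmeticRingAut (modularFunctionFieldFull M) s⁻¹ (Fermat.Agent.S18.H28.jtop M)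
      = Fermat.Agent.S18.H28.jtop M := by
    rw [← hg]
    exact arithmeticRingAut_ratEmb M s⁻¹ g
  rw [hfix] at hk
  -- the modular equations
  obtain ⟨Φ, hΦ⟩ := Fermat.Agent.S28.hasModPolys q hq
  obtain ⟨hm12, hm21⟩ := Fermat.Agent.S34.H42.evalY_jFN (M * q) hq M (dvd_mul_right M q)
    dvd_rfl hΦ
  rw [← alpha_jtop, ← beta_jtop] at hm12 hm21
  -- the point
  intro x hx _ hcusp
  obtain ⟨c, hcx, hc⟩ := hcusp
  haveI := hx.isPrime
  let ι : ↥(ratForm (M * q) K₀) →+* FN (M * q) :=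
    algebraMap ↥(ratForm (M * q) K₀) (FN (M * q))
  set j₂ : ↥(ratForm (M * q) K₀) :=
    ⟨heckeBetaBar Kb M q (Fermat.Agent.S18.H28.jtop M),
      heckeBetaBar_mem_ratForm M q K₀ hfmem⟩ with hj₂def
  have hι₁ : ι j = heckeAlphaBar Kb M q (Fermat.Agent.S18.H28.jtop M) := hj
  have hι₂ : ι j₂ = heckeBetaBar Kb M q (Fermat.Agent.S18.H28.jtop M) := rfl
  have hα0 : heckeAlphaBar Kb M q (Fermat.Agent.S18.H28.jtop M) ≠ 0 := fun h0 =>
    hx₀.alpha_transcendental (by rw [h0]; exact isAlgebraic_zero)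
  have hf0 : Fermat.Agent.S18.H28.jtop M ≠ 0 := fun h0 => hα0 (by rw [h0, map_zero])
  have hβ0 : heckeBetaBar Kb M q (Fermat.Agent.S18.H28.jtop M) ≠ 0 :=
    (map_ne_zero (heckeBetaBar Kb M q)).2 hf0
  have hj₁ : j ≠ 0 := by
    rintro rfl
    exact hα0 (by rw [← hι₁, map_zero])
  have hj₂ : j₂ ≠ 0 := by
    intro h0
    exact hβ0 (by rw [← hι₂, h0, map_zero])
  have h12 : (evalY j Φ).eval j₂ = 0 := by
    apply ι.injective
    rw [map_evalY_eval, hι₁, hι₂, hm12, map_zero]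
  have h21 : (evalY j₂ Φ).eval j = 0 := by
    apply ι.injective
    rw [map_evalY_eval, hι₁, hι₂, hm21, map_zero]
  -- the two Gauss rings on the `K₀`-form
  have hn₁ : ∀ y : ↥(ratForm (M * q) K₀), y ∈ (O₁.comap ι).nonunits ↔ ι y ∈ O₁.nonunits :=
    fun y => (mem_nonunits_iff_of_mem_iff ι (O₁.comap ι) O₁ (fun _ => Iff.rfl) y).symm
  have hn₂ : ∀ y : ↥(ratForm (M * q) K₀),
      y ∈ ((gaussTwo M q O₁ w).comap ι).nonunits ↔ w (ι y) ∈ O₁.nonunits := fun y => by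
    rw [← mem_nonunits_gaussTwo (M := M) (q := q)]
    exact (mem_nonunits_iff_of_mem_iff ι ((gaussTwo M q O₁ w).comap ι) (gaussTwo M q O₁ w)
      (fun _ => Iff.rfl) y).symm
  have hk₁ : j₂ - j ^ q ∈ (O₁.comap ι).nonunits := by
    rw [hn₁, map_sub, map_pow, hι₁, hι₂]
    exact hk
  have hk₂ : j - j₂ ^ q ∈ ((gaussTwo M q O₁ w).comap ι).nonunits := by
    rw [hn₂, map_sub, map_pow, hι₁, hι₂, map_sub, map_pow, hTG.w_alpha, hTG.w_beta]
    exact hk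
  have hu₂ : j₂⁻¹ ∈ (gaussTwo M q O₁ w).comap ι := by
    show w (ι j₂⁻¹) ∈ O₁
    rw [map_inv₀, hι₂, map_inv₀, hTG.w_beta, ← map_inv₀, hTG.alpha_mem_iff]
    exact hfO.2
  -- the chart at infinity lies in both Gauss rings
  have hA₁ : ∀ a : ↥(A.comap (algebraMap K₀ Kb)),
      algebraMap ↥(A.comap (algebraMap K₀ Kb)) ↥(ratForm (M * q) K₀) a ∈ O₁.comap ι := fun a => by
    show algebraMap Kb (FN (M * q)) (algebraMap K₀ Kb (a : K₀)) ∈ O₁
    rw [hTG.algebraMap_mem_iff]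
    exact a.2
  have hA₂ : ∀ a : ↥(A.comap (algebraMap K₀ Kb)),
      algebraMap ↥(A.comap (algebraMap K₀ Kb)) ↥(ratForm (M * q) K₀) a ∈
        (gaussTwo M q O₁ w).comap ι := fun a => by
    show w (algebraMap Kb (FN (M * q)) (algebraMap K₀ Kb (a : K₀))) ∈ O₁
    rw [hTG.w_algebraMap, hTG.algebraMap_mem_iff]
    exact a.2
  have hjinv₁ : j⁻¹ ∈ O₁.comap ι := by
    show ι j⁻¹ ∈ O₁
    rw [map_inv₀, hι₁, ← map_inv₀, hTG.alpha_mem_iff]
    exact hfO.2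
  have hjinv₂ : j⁻¹ ∈ (gaussTwo M q O₁ w).comap ι := by
    show w (ι j⁻¹) ∈ O₁
    rw [map_inv₀, hι₁, map_inv₀, hTG.w_alpha, ← map_inv₀, hTG.beta_mem_iff]
    exact hfO.2
  have hCV₁ := Fermat.Agent.S18.H72.chart_subset_valuationSubring (O₁.comap ι) hA₁ hjinv₁
  have hCV₂ := Fermat.Agent.S18.H72.chart_subset_valuationSubring
    ((gaussTwo M q O₁ w).comap ι) hA₂ hjinv₂
  haveI := hCG.icl₂
  have hs : j⁻¹ ∈ chart ↥(A.comap (algebraMap K₀ Kb)) j⁻¹ := self_mem_chart _ _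
  have hsx : (⟨j⁻¹, hs⟩ : ↥(chart ↥(A.comap (algebraMap K₀ Kb)) j⁻¹)) ∈ x := by
    have hcj : c = ⟨j⁻¹, hs⟩ := Subtype.ext hc
    rw [← hcj]
    exact hcx
  exact Fermat.Agent.S34.H42.cusp_not_both (chart ↥(A.comap (algebraMap K₀ Kb)) j⁻¹)
    hCG.frac₂ hq hΦ j j₂ hj₁ hj₂ h12 h21 hs (O₁.comap ι) ((gaussTwo M q O₁ w).comap ι)
    hCV₁ hCV₂ hk₁ hk₂ hu₂ x hsx

/-- The cusp leaf for the Hauptmodul base functions (`q = 2, 3`). -/
def CuspLeaf23 : Prop :=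
  ∀ (M q : ℕ) [NeZero M] [Fact q.Prime] (hqM : ¬ q ∣ M) (A : ValuationSubring Kb)
    (hA : A.LiesOverPrime q) (hAtop : A ≠ ⊤) (O₁ : ValuationSubring (FN (M * q)))
    (w : FN (M * q) ≃+* FN (M * q)), TwoGauss M q hqM A hA O₁ w →
    ∀ (x₀ : FN M), IsBase M q hqM A hA x₀ → BaseSpec M q x₀ → (q = 2 ∨ q = 3) →
    ∀ (K₀ : IntermediateField ℚ Kb) [FiniteDimensional ℚ K₀] [Normal ℚ K₀]
      (ϖ : ↥(A.comap (algebraMap K₀ Kb))), Irreducible ϖ →
      ∀ (j : ↥(ratForm (M * q) K₀)), (j : FN (M * q)) = heckeAlphaBar Kb M q x₀ →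
      ∀ σ : Kb ≃ₐ[ℚ] Kb, (stdV M q A hAtop O₁ w K₀ ϖ j σ).Cusp

/-- **Leaf (M6c)** from its cases `q = 2, 3`: the case `q ≠ 2, 3` (base function `j(q^M)`) is
`cusp_stdV_jtop`. -/
theorem cuspLeaf2_of_23 (h23 : CuspLeaf23) : CuspLeaf2 := by
  intro M q _ _ hqM A hA hAtop O₁ w hTG x₀ hx₀ hspec K₀ _ _ ϖ hϖ j hj σ
  rcases hspec with ⟨-, -, rfl⟩ | ⟨hq3, hrest⟩ | ⟨hq2, hrest⟩
  · exact cusp_stdV_jtop M q hqM A hA hAtop O₁ w hTG hx₀ K₀ ϖ j hj σ
  · exact h23 M q hqM A hA hAtop O₁ w hTG x₀ hx₀ (Or.inr (Or.inl ⟨hq3, hrest⟩)) (Or.inr hq3)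
      K₀ ϖ hϖ j hj σ
  · exact h23 M q hqM A hA hAtop O₁ w hTG x₀ hx₀ (Or.inr (Or.inr ⟨hq2, hrest⟩)) (Or.inl hq2)
      K₀ ϖ hϖ j hj σ

end Fermat.Agent.S34.H79
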